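import Mathlib
import Fermat.Prelude.Def_ModularCurve_PeriodHomPair
import Fermat.Agent.S16.EX.PeriodInj

/-!
# S16-COH-E: `ι (per b) = conj ∘ per b'` for a cusp form `b'`

With `b' = - b^c`, `b^c(z) = conj (b (-conj z))` (`Fermat.Agent.S16.EX.PeriodInj.conjForm`).
-/

set_option autoImplicit false

open scoped MatrixGroups ModularForm
open UpperHalfPlane CongruenceSubgroup ModularCurve ModularCurve.Period

namespace Fermat.Agent.S16.Coh

open Fermat.Agent.S16.EX.PeriodInj

theorem exists_conj_period (N : ℕ) [NeZero N] (b : CuspForm (Gamma0 N) 2) :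
    ∃ b' : CuspForm (Gamma0 N) 2, ∀ γ : Additive (Gamma0 N),
      charInvolution N ℂ ℂ (periodMap N b) γ = (starRingEnd ℂ) (periodMap N b' γ) := by
  refine ⟨-conjForm b, fun γ => ?_⟩
  obtain ⟨γ, rfl⟩ := Additive.ofMul.surjective γ
  have hneg : periodMap N (-conjForm b) = -periodMap N (conjForm b) := by
    have h := Fermat.Agent.S21.periodMap_smul N (-1 : ℂ) (conjForm b)
    simpa using h
  rw [charInvolution_apply, toMul_ofMul, periodMap_jConj, hneg, AddMonoidHom.neg_apply, map_neg]

end Fermat.Agent.S16.Coh
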