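import Mathlib

/-!
# Abstract crossed-map dimension count over an arbitrary field  (S16, cohomological EX half)

This is the characteristic-free version of `Fermat.Agent.S21.crossed_count`.  A group `G` acts on
a finite set `X`; `s`, `t ∈ G` act with `s² = 1`, `(s t)³ = 1` and "transitively".  A linear family
of crossed maps over a field `K` (given by its values `A` at `s` and `B` at `s t`), which
*vanishes at the fixed points* of `s` resp. `s t`, has vanishing `t`-orbit sums and is injective
modulo coboundaries, has dimension at most `2 + |X| − o_s − o_{st} − o_t` (`o_g` = number of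
`⟨g⟩`-orbits).

The vanishing at fixed points is automatic in characteristic `≠ 2, 3`; imposing it makes the
orthogonality argument work in every characteristic (sums over orbits instead of averaging).
-/

set_option autoImplicit false

namespace Fermat.Agent.S16.Coh

open Module

section OrbitSum

variable {G : Type*} [Group G] {X : Type*} [MulAction G X]

/-- Every point of a finite `G`-set has positive period under any `a : G`. -/
theorem period_pos_of_finite [Finite X] (a : G) (x : X) : 0 < MulAction.period a x := by
  have hinj : Function.Injective (fun y : X => a • y) := MulAction.injective a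
  have hx : x ∈ Function.periodicPts (fun y : X => a • y) := hinj.mem_periodicPts x
  rw [MulAction.period_eq_minimalPeriod]
  exact Function.minimalPeriod_pos_of_mem_periodicPts hx

/-- The map `i ↦ a ^ i • x` is injective on `i < period a x`. -/
theorem pow_smul_injOn_period (a : G) (x : X) :
    Set.InjOn (fun i : ℕ => a ^ i • x) (Finset.range (MulAction.period a x) : Set ℕ) := by
  intro i hi j hj hij
  have hi' : i < Function.minimalPeriod (fun y : X => a • y) x := by
    rw [← MulAction.period_eq_minimalPeriod]; simpa using hi
  have hj' : j < Function.minimalPeriod (fun y : X => a • y) x := by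
    rw [← MulAction.period_eq_minimalPeriod]; simpa using hj
  have h := Function.iterate_injOn_Iio_minimalPeriod (f := fun y : X => a • y) (x := x)
    (Set.mem_Iio.mpr hi') (Set.mem_Iio.mpr hj')
  apply h
  simp only [smul_iterate]
  exact hij

/-- A sum over a finite `G`-set vanishes as soon as all its sums over `⟨a⟩`-orbits vanish. -/
theorem sum_eq_zero_of_orbit_sums [Fintype X] {M : Type*} [AddCommMonoid M] (a : G) (F : X → M)
    (h : ∀ x : X, ∑ i ∈ Finset.range (MulAction.period a x), F (a ^ i • x) = 0) :
    ∑ x, F x = 0 := by
  classical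
  rw [Finset.sum_partition (MulAction.orbitRel (Subgroup.zpowers a) X)]
  refine Finset.sum_eq_zero fun q _ => ?_
  induction q using Quotient.inductionOn' with
  | h x₀ =>
    have hfib : (Finset.univ.filter fun y : X =>
        (Quotient.mk'' y : Quotient (MulAction.orbitRel (Subgroup.zpowers a) X))
          = Quotient.mk'' x₀)
        = (Finset.range (MulAction.period a x₀)).image (fun i : ℕ => a ^ i • x₀) := by
      ext y
      simp only [Finset.mem_filter, Finset.mem_univ, true_and, Finset.mem_image,
        Finset.mem_range]
      rw [Quotient.eq'', MulAction.orbitRel_apply, MulAction.mem_orbit_iff]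
      constructor
      · rintro ⟨⟨g, hg⟩, rfl⟩
        obtain ⟨k, rfl⟩ := Subgroup.mem_zpowers_iff.mp hg
        have hpos : (0 : ℤ) < (MulAction.period a x₀ : ℤ) := by
          exact_mod_cast period_pos_of_finite a x₀
        refine ⟨(k % (MulAction.period a x₀ : ℤ)).toNat, ?_, ?_⟩
        · have h1 := Int.emod_lt_of_pos k hpos
          have h0 := Int.emod_nonneg k hpos.ne'
          omega
        · have h0 := Int.emod_nonneg k hpos.ne'
          have e : a ^ (k % (MulAction.period a x₀ : ℤ)).toNat
              = a ^ (k % (MulAction.period a x₀ : ℤ)) := by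
            rw [← zpow_natCast, Int.toNat_of_nonneg h0]
          rw [e, MulAction.zpow_mod_period_smul]
          rfl
      · rintro ⟨i, -, rfl⟩
        exact ⟨⟨a ^ i, Subgroup.pow_mem _ (Subgroup.mem_zpowers a) i⟩, rfl⟩
    rw [hfib, Finset.sum_image (pow_smul_injOn_period a x₀)]
    exact h x₀

end OrbitSum

/-- If two subspaces are orthogonal for an injective pairing `E → E*`, their dimensions add up
to at most `dim E`. -/
theorem fieldCount_orth {K : Type*} [Field K] {E : Type*} [AddCommGroup E] [Module K E]
    [FiniteDimensional K E]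
    (P : E →ₗ[K] Module.Dual K E) (hP : Function.Injective P) (R U : Submodule K E)
    (h : ∀ r ∈ R, ∀ u ∈ U, P u r = 0) :
    finrank K R + finrank K U ≤ finrank K E := by
  have h1 := Subspace.finrank_add_finrank_dualAnnihilator_eq R
  have h2 : finrank K U ≤ finrank K R.dualAnnihilator := by
    let g : U →ₗ[K] R.dualAnnihilator :=
      (P.domRestrict U).codRestrict R.dualAnnihilator (fun u => by
        rw [Submodule.mem_dualAnnihilator]
        intro r hr
        exact h r hr u u.2)
    refine LinearMap.finrank_le_finrank_of_injective (f := g) ?_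
    intro u u' huu'
    have : P u = P u' := congrArg Subtype.val huu'
    exact Subtype.ext (hP this)
  omega

/-- A space all of whose elements are "constant functions" (via an injective-on-zero linear map
into functions on a type) has dimension at most one. -/
theorem fieldCount_finrank_le_one {K : Type*} [Field K] {X : Type*} {E : Type*}
    [AddCommGroup E] [Module K E] (ℓ : E →ₗ[K] (X → K)) (hconst : ∀ e x y, ℓ e x = ℓ e y)
    (hzero : ∀ e, ℓ e = 0 → e = 0) : finrank K E ≤ 1 := by
  rcases isEmpty_or_nonempty X with hX | ⟨⟨x₀⟩⟩
  · have hsub : Subsingleton E := by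
      refine ⟨fun e e' => ?_⟩
      have h1 : e = 0 := hzero e (funext fun x => (hX.false x).elim)
      have h2 : e' = 0 := hzero e' (funext fun x => (hX.false x).elim)
      rw [h1, h2]
    rw [finrank_zero_of_subsingleton]
    exact Nat.zero_le 1
  · let S : E →ₗ[K] K := (LinearMap.proj x₀).comp ℓ
    have hS : Function.Injective S := by
      rw [← LinearMap.ker_eq_bot, LinearMap.ker_eq_bot']
      intro e he
      apply hzero
      funext x
      have he' : ℓ e x₀ = 0 := he
      rw [hconst e x x₀, he']
      rfl
    have := LinearMap.finrank_le_finrank_of_injective hS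
    simpa using this

section Pair

variable {K : Type*} [Field K] {X : Type*} [Fintype X]

/-- The dot-product pairing on pairs of functions. -/
noncomputable def fieldPair :
    ((X → K) × (X → K)) →ₗ[K] Module.Dual K ((X → K) × (X → K)) :=
  LinearMap.mk₂ K (fun u r => ∑ x, u.1 x * r.1 x + ∑ x, u.2 x * r.2 x)
    (by intro a b r; simp only [Prod.fst_add, Prod.snd_add, Pi.add_apply, add_mul,
          Finset.sum_add_distrib]; ring)
    (by intro c a r; simp only [Prod.smul_fst, Prod.smul_snd, Pi.smul_apply, smul_eq_mul,
          Finset.mul_sum, mul_add, mul_assoc])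
    (by intro a r r'; simp only [Prod.fst_add, Prod.snd_add, Pi.add_apply, mul_add,
          Finset.sum_add_distrib]; ring)
    (by intro c a r; simp only [Prod.smul_fst, Prod.smul_snd, Pi.smul_apply, smul_eq_mul,
          Finset.mul_sum, mul_add, mul_left_comm])

theorem fieldPair_apply (u r : (X → K) × (X → K)) :
    fieldPair u r = ∑ x, u.1 x * r.1 x + ∑ x, u.2 x * r.2 x := rfl

theorem fieldPair_injective : Function.Injective (fieldPair (K := K) (X := X)) := by
  classical
  rw [← LinearMap.ker_eq_bot, LinearMap.ker_eq_bot']
  intro u hu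
  have h1 : ∀ x, u.1 x = 0 := by
    intro x
    have := congrArg (fun φ => φ ((Pi.single x 1 : X → K), (0 : X → K))) hu
    simpa [fieldPair_apply, Pi.single_apply] using this
  have h2 : ∀ x, u.2 x = 0 := by
    intro x
    have := congrArg (fun φ => φ ((0 : X → K), (Pi.single x 1 : X → K))) hu
    simpa [fieldPair_apply, Pi.single_apply] using this
  exact Prod.ext (funext h1) (funext h2)

end Pair

section Inv

variable (K : Type*) [Field K] {G : Type*} [Group G] {X : Type*} [MulAction G X]

/-- Functions on `X` invariant under `g`. -/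
def fieldInv (g : G) : Submodule K (X → K) where
  carrier := {u | ∀ x, u (g • x) = u x}
  add_mem' := by intro a b ha hb x; simp only [Pi.add_apply, ha x, hb x]
  zero_mem' := by intro x; rfl
  smul_mem' := by intro c a ha x; simp only [Pi.smul_apply, ha x]

variable {K}

theorem mem_fieldInv (g : G) (u : X → K) : u ∈ fieldInv K g ↔ ∀ x, u (g • x) = u x := Iff.rfl

/-- The number of `⟨g⟩`-orbits is at most the dimension of the `g`-invariant functions. -/
theorem fieldCount_orbits_le [Finite X] (g : G) :
    Nat.card (MulAction.orbitRel.Quotient (Subgroup.zpowers g) X)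
      ≤ finrank K (fieldInv K (X := X) g) := by
  classical
  have := Fintype.ofFinite X
  have : Fintype (MulAction.orbitRel.Quotient (Subgroup.zpowers g) X) := Fintype.ofFinite _
  let f : (MulAction.orbitRel.Quotient (Subgroup.zpowers g) X → K) →ₗ[K] fieldInv K (X := X) g :=
    { toFun := fun l => ⟨fun x => l (Quotient.mk'' x), by
        rw [mem_fieldInv]
        intro x
        congr 1
        exact Quotient.sound' (MulAction.mem_orbit x
          (⟨g, Subgroup.mem_zpowers g⟩ : Subgroup.zpowers g))⟩
      map_add' := by intro a b; rfl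
      map_smul' := by intro c a; rfl }
  have hf : Function.Injective f := by
    intro l l' h
    funext q
    induction q using Quotient.inductionOn' with
    | h x => exact congrFun (congrArg Subtype.val h) x
  have := LinearMap.finrank_le_finrank_of_injective hf
  rwa [Module.finrank_fintype_fun_eq_card, ← Nat.card_eq_fintype_card] at this

end Inv

section Main

/-- **Abstract crossed-map dimension count over a field.**  `G` acts on the finite set `X`;
`s`, `t ∈ G` with `s² = 1` and `(s t)³ = 1` on `X`, acting "transitively" (functions invariant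
under `s` and `s t` are constant).  `A`, `B` are the two components (values at `s` and at `s t`)
of a linear family of crossed maps `G × X → K`, vanishing at the fixed points of `s` resp. `s t`,
whose `t`-orbit sums vanish (`hpar`) and which is injective modulo coboundaries (`hinj`).  Then
`dim V + o_s + o_{st} + o_t ≤ |X| + 2`. -/
theorem crossed_count_field {K : Type*} [Field K] {G : Type*} [Group G] {X : Type*}
    [MulAction G X] [Finite X] (s t : G)
    (hs : ∀ x : X, s • s • x = x) (hst : ∀ x : X, (s * t) • (s * t) • (s * t) • x = x)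
    (htrans : ∀ u : X → K, (∀ x, u (s • x) = u x) → (∀ x, u ((s * t) • x) = u x) →
      ∀ x y, u x = u y)
    {V : Type*} [AddCommGroup V] [Module K V] (A B : V →ₗ[K] (X → K))
    (hA : ∀ v x, A v (s • x) = -A v x)
    (hA0 : ∀ v x, s • x = x → A v x = 0)
    (hB : ∀ v x, B v x + B v ((s * t) • x) + B v ((s * t) • (s * t) • x) = 0)
    (hB0 : ∀ v x, (s * t) • x = x → B v x = 0)
    (hpar : ∀ v (x : X) (n : ℕ), t ^ n • x = x →
      ∑ i ∈ Finset.range n, (B v (t ^ i • x) - A v (t ^ (i + 1) • x)) = 0)
    (hinj : ∀ v (u : X → K), (∀ x, A v x = u (s • x) - u x) →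
      (∀ x, B v x = u ((s * t) • x) - u x) → v = 0) :
    Module.Finite K V ∧
      Module.finrank K V + Nat.card (MulAction.orbitRel.Quotient (Subgroup.zpowers s) X)
        + Nat.card (MulAction.orbitRel.Quotient (Subgroup.zpowers (s * t)) X)
        + Nat.card (MulAction.orbitRel.Quotient (Subgroup.zpowers t) X) ≤ Nat.card X + 2 := by
  classical
  let _ : Fintype X := Fintype.ofFinite X
  -- Step 1: `V` is finite-dimensional
  have hΦ : Function.Injective (A.prod B) := by
    rw [← LinearMap.ker_eq_bot, LinearMap.ker_eq_bot']
    intro v hv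
    have h1 : A v = 0 := congrArg Prod.fst hv
    have h2 : B v = 0 := congrArg Prod.snd hv
    exact hinj v 0 (fun x => by simp [h1]) (fun x => by simp [h2])
  have hfin : Module.Finite K V := Module.Finite.of_injective (A.prod B) hΦ
  refine ⟨hfin, ?_⟩
  -- reindexing of sums along the action
  have hre : ∀ (g : G) (f : X → K), ∑ x, f (g • x) = ∑ x, f x := fun g f =>
    (MulAction.bijective g).sum_comp f
  -- the map `Ψ (v, u) = (A v, B v) + d u`
  set dσ : (X → K) →ₗ[K] (X → K) :=
    LinearMap.funLeft K K (fun x : X => s • x) - LinearMap.id with hdσ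
  set dυ : (X → K) →ₗ[K] (X → K) :=
    LinearMap.funLeft K K (fun x : X => (s * t) • x) - LinearMap.id with hdυ
  set Ψ : (V × (X → K)) →ₗ[K] ((X → K) × (X → K)) := (A.prod B).coprod (dσ.prod dυ) with hΨ
  have hΨ1 : ∀ v u x, (Ψ (v, u)).1 x = A v x + (u (s • x) - u x) := by
    intro v u x
    simp [hΨ, hdσ, LinearMap.funLeft_apply]
  have hΨ2 : ∀ v u x, (Ψ (v, u)).2 x = B v x + (u ((s * t) • x) - u x) := by
    intro v u x
    simp [hΨ, hdυ, LinearMap.funLeft_apply]
  have hker : ∀ v u, Ψ (v, u) = 0 → v = 0 ∧ ∀ x y, u x = u y := by
    intro v u hk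
    have e1 : ∀ x, A v x + (u (s • x) - u x) = 0 := fun x => by rw [← hΨ1, hk]; rfl
    have e2 : ∀ x, B v x + (u ((s * t) • x) - u x) = 0 := fun x => by rw [← hΨ2, hk]; rfl
    have hv : v = 0 := hinj v (-u)
      (fun x => by simp only [Pi.neg_apply]; linear_combination e1 x)
      (fun x => by simp only [Pi.neg_apply]; linear_combination e2 x)
    subst hv
    refine ⟨rfl, htrans u (fun x => ?_) (fun x => ?_)⟩
    · have := e1 x
      simp only [map_zero, Pi.zero_apply, zero_add] at this
      linear_combination this
    · have := e2 x
      simp only [map_zero, Pi.zero_apply, zero_add] at this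
      linear_combination this
  have hkerΨ : finrank K (LinearMap.ker Ψ) ≤ 1 := by
    refine fieldCount_finrank_le_one (X := X)
      ((LinearMap.snd K V (X → K)).comp (LinearMap.ker Ψ).subtype) ?_ ?_
    · rintro ⟨⟨v, u⟩, hk⟩ x y
      exact (hker v u (LinearMap.mem_ker.1 hk)).2 x y
    · rintro ⟨⟨v, u⟩, hk⟩ h0
      have hu : u = 0 := h0
      have hv := (hker v u (LinearMap.mem_ker.1 hk)).1
      subst hu hv
      rfl
  -- the map `Λ (p, q, w) = (p - w, q + w)` on invariant functions
  set Λ : ((fieldInv K (X := X) s × fieldInv K (X := X) (s * t)) × fieldInv K (X := X) t)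
      →ₗ[K] ((X → K) × (X → K)) :=
    ((fieldInv K (X := X) s).subtype.comp ((LinearMap.fst K _ _).comp (LinearMap.fst K _ _))
        - (fieldInv K (X := X) t).subtype.comp (LinearMap.snd K _ _)).prod
      ((fieldInv K (X := X) (s * t)).subtype.comp
          ((LinearMap.snd K _ _).comp (LinearMap.fst K _ _))
        + (fieldInv K (X := X) t).subtype.comp (LinearMap.snd K _ _)) with hΛ
  have hΛ1 : ∀ (p : fieldInv K (X := X) s) (q : fieldInv K (X := X) (s * t))
      (w : fieldInv K (X := X) t) (x : X),
      (Λ ((p, q), w)).1 x = (p : X → K) x - (w : X → K) x := fun p q w x => rfl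
  have hΛ2 : ∀ (p : fieldInv K (X := X) s) (q : fieldInv K (X := X) (s * t))
      (w : fieldInv K (X := X) t) (x : X),
      (Λ ((p, q), w)).2 x = (q : X → K) x + (w : X → K) x := fun p q w x => rfl
  have hkerΛ : finrank K (LinearMap.ker Λ) ≤ 1 := by
    let ℓ : LinearMap.ker Λ →ₗ[K] (X → K) :=
      (fieldInv K (X := X) t).subtype.comp ((LinearMap.snd K _ _).comp (LinearMap.ker Λ).subtype)
    refine @fieldCount_finrank_le_one K _ X (LinearMap.ker Λ) (Submodule.addCommGroup _) _ ℓ
      ?_ ?_
    · rintro ⟨⟨⟨p, q⟩, w⟩, hk⟩ x y
      rw [LinearMap.mem_ker] at hk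
      have e1 : ∀ x, (p : X → K) x - (w : X → K) x = 0 := fun x => by rw [← hΛ1 p q w, hk]; rfl
      have e2 : ∀ x, (q : X → K) x + (w : X → K) x = 0 := fun x => by rw [← hΛ2 p q w, hk]; rfl
      refine htrans (w : X → K) (fun x => ?_) (fun x => ?_) x y
      · have hp := (mem_fieldInv s _).1 p.2 x
        linear_combination hp - e1 (s • x) + e1 x
      · have hq := (mem_fieldInv (s * t) _).1 q.2 x
        linear_combination -hq + e2 ((s * t) • x) - e2 x
    · rintro ⟨⟨⟨p, q⟩, w⟩, hk⟩ h0
      rw [LinearMap.mem_ker] at hk
      have hw : (w : X → K) = 0 := h0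
      have e1 : ∀ x, (p : X → K) x - (w : X → K) x = 0 := fun x => by rw [← hΛ1 p q w, hk]; rfl
      have e2 : ∀ x, (q : X → K) x + (w : X → K) x = 0 := fun x => by rw [← hΛ2 p q w, hk]; rfl
      have hp : p = 0 := Subtype.ext (funext fun x => by
        have := e1 x; rw [hw] at this; simpa using this)
      have hq : q = 0 := Subtype.ext (funext fun x => by
        have := e2 x; rw [hw] at this; simpa using this)
      have hw' : w = 0 := Subtype.ext hw
      subst hp hq hw'
      rfl
  -- orthogonality of the two ranges
  have horth : ∀ r ∈ LinearMap.range Ψ, ∀ u ∈ LinearMap.range Λ, fieldPair u r = 0 := by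
    rintro _ ⟨⟨v, u⟩, rfl⟩ _ ⟨⟨⟨p, q⟩, w⟩, rfl⟩
    rw [fieldPair_apply]
    simp only [hΨ1, hΨ2, hΛ1, hΛ2]
    have hp : ∀ x, (p : X → K) (s • x) = (p : X → K) x := (mem_fieldInv s _).1 p.2
    have hq : ∀ x, (q : X → K) ((s * t) • x) = (q : X → K) x := (mem_fieldInv (s * t) _).1 q.2
    have hw : ∀ x, (w : X → K) (t • x) = (w : X → K) x := (mem_fieldInv t _).1 w.2
    have hwpow : ∀ (i : ℕ) (x : X), (w : X → K) (t ^ i • x) = (w : X → K) x := by
      intro i
      induction i with
      | zero => intro x; simp
      | succ i ih => intro x; rw [pow_succ, mul_smul, ih, hw]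
    -- `∑ p A = 0`: sum over `s`-orbits
    have F1 : ∑ x, (p : X → K) x * A v x = 0 := by
      refine sum_eq_zero_of_orbit_sums s (fun x => (p : X → K) x * A v x) fun x => ?_
      have hdvd : MulAction.period s x ∣ 2 := by
        rw [← MulAction.pow_smul_eq_iff_period_dvd, pow_two, mul_smul]
        exact hs x
      rcases (Nat.dvd_prime Nat.prime_two).mp hdvd with h1 | h2
      · have hfix : s • x = x := by
          have := MulAction.pow_period_smul s x
          rwa [h1, pow_one] at this
        rw [h1, Finset.sum_range_one, pow_zero, one_smul, hA0 v x hfix, mul_zero]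
      · rw [h2, Finset.sum_range_succ, Finset.sum_range_one, pow_zero, one_smul, pow_one, hp, hA]
        ring
    have F2 : ∑ x, (p : X → K) x * u (s • x) = ∑ x, (p : X → K) x * u x := by
      have h := hre s (fun x => (p : X → K) x * u x)
      simpa only [hp] using h
    -- `∑ q B = 0`: sum over `s t`-orbits
    have F3 : ∑ x, (q : X → K) x * B v x = 0 := by
      refine sum_eq_zero_of_orbit_sums (s * t) (fun x => (q : X → K) x * B v x) fun x => ?_
      have hdvd : MulAction.period (s * t) x ∣ 3 := by
        rw [← MulAction.pow_smul_eq_iff_period_dvd, pow_succ, pow_two, mul_smul, mul_smul]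
        exact hst x
      rcases (Nat.dvd_prime Nat.prime_three).mp hdvd with h1 | h3
      · have hfix : (s * t) • x = x := by
          have := MulAction.pow_period_smul (s * t) x
          rwa [h1, pow_one] at this
        rw [h1, Finset.sum_range_one, pow_zero, one_smul, hB0 v x hfix, mul_zero]
      · have e2 : (s * t) ^ 2 • x = (s * t) • (s * t) • x := by rw [pow_two, mul_smul]
        rw [h3, Finset.sum_range_succ, Finset.sum_range_succ, Finset.sum_range_one, pow_zero,
          one_smul, pow_one, e2]
        simp only [hq]
        have := hB v x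
        linear_combination (q : X → K) x * this
    have F4 : ∑ x, (q : X → K) x * u ((s * t) • x) = ∑ x, (q : X → K) x * u x := by
      have h := hre (s * t) (fun x => (q : X → K) x * u x)
      simpa only [hq] using h
    have F5 : ∑ x, (w : X → K) x * u ((s * t) • x) = ∑ x, (w : X → K) x * u (s • x) := by
      have h := hre t (fun x => (w : X → K) x * u (s • x))
      simpa only [hw, ← mul_smul] using h
    -- `∑ w (B - A ∘ t) = 0`: sum over `t`-orbits
    have F6' : ∑ x, (w : X → K) x * (B v x - A v (t • x)) = 0 := by
      refine sum_eq_zero_of_orbit_sums t (fun x => (w : X → K) x * (B v x - A v (t • x)))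
        fun x => ?_
      have hrw : ∀ i : ℕ, (w : X → K) (t ^ i • x) * (B v (t ^ i • x) - A v (t • t ^ i • x))
          = (w : X → K) x * (B v (t ^ i • x) - A v (t ^ (i + 1) • x)) := by
        intro i
        rw [hwpow, pow_succ', mul_smul]
      rw [Finset.sum_congr rfl (fun i _ => hrw i), ← Finset.mul_sum,
        hpar v x _ (MulAction.pow_period_smul t x), mul_zero]
    have F6 : ∑ x, (w : X → K) x * B v x = ∑ x, (w : X → K) x * A v x := by
      have h2 := hre t (fun x => (w : X → K) x * A v x)
      simp only [hw] at h2
      simp only [mul_sub, Finset.sum_sub_distrib] at F6'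
      linear_combination F6' + h2
    have e1 : ∀ x, ((p : X → K) x - (w : X → K) x) * (A v x + (u (s • x) - u x))
        = (p : X → K) x * A v x + (p : X → K) x * u (s • x) - (p : X → K) x * u x
          - (w : X → K) x * A v x - (w : X → K) x * u (s • x) + (w : X → K) x * u x :=
      fun x => by ring
    have e2 : ∀ x, ((q : X → K) x + (w : X → K) x) * (B v x + (u ((s * t) • x) - u x))
        = (q : X → K) x * B v x + (q : X → K) x * u ((s * t) • x) - (q : X → K) x * u x
          + (w : X → K) x * B v x + (w : X → K) x * u ((s * t) • x) - (w : X → K) x * u x :=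
      fun x => by ring
    simp only [e1, e2, Finset.sum_add_distrib, Finset.sum_sub_distrib]
    linear_combination F1 + F2 + F3 + F4 + F5 + F6
  have hmain := fieldCount_orth fieldPair fieldPair_injective (LinearMap.range Ψ)
    (LinearMap.range Λ) horth
  -- rank–nullity
  have hrnΨ := LinearMap.finrank_range_add_finrank_ker Ψ
  have hrnΛ := LinearMap.finrank_range_add_finrank_ker Λ
  rw [Module.finrank_prod, Module.finrank_fintype_fun_eq_card] at hrnΨ hmain
  rw [Module.finrank_prod, Module.finrank_prod] at hrnΛ
  have h2 := fieldCount_orbits_le (K := K) (X := X) s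
  have h3 := fieldCount_orbits_le (K := K) (X := X) (s * t)
  have hτ := fieldCount_orbits_le (K := K) (X := X) t
  have hX : Nat.card X = Fintype.card X := Nat.card_eq_fintype_card
  omega

end Main

end Fermat.Agent.S16.Coh
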