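import Mathlib
import Fermat.Prelude.Def_ModularCurve_PeriodHomPair
import Fermat.Prelude.Def_CuspForm_HeckeEvalForms
import Fermat.Prelude.Sol.S_ModularForm_heckeT_slash_eq_self_of_mem_Gamma0
import Fermat.Agent.S21.Primitive

/-!
# S16-COH-D: periods of `T_ℓ f` and `U_q f` as sums of periods of `f`

If `F` is an equivariant primitive of `f ∈ S₂(Γ₀(N))`, then `z ↦ ∑_x F (M_x z)` (sum over the
Hecke coset representatives) is a primitive of `T_ℓ f`; evaluating its variation along `γ ∈ Γ₀(N)`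
with the coset relation `M_x γ = δ_x M_{γ·x}` gives
`periodMap (T_ℓ f) γ = ∑_x periodMap f δ_x`.
-/

set_option autoImplicit false

open scoped MatrixGroups ModularForm
open UpperHalfPlane Matrix.SpecialLinearGroup CongruenceSubgroup ModularCurve ModularCurve.Period
open P2MW.S_ModularForm_heckeT_slash_eq_self_of_mem_Gamma0.ModularForm.HeckeSlashInvariance

namespace Fermat.Agent.S16.Coh

namespace HeckePeriod

/-- Chain rule for a primitive composed with an affine Möbius map `z ↦ a z + b`. -/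
theorem hasDerivAt_comp_affine {F f : ℍ → ℂ}
    (hF : ∀ τ : ℍ, HasDerivAt (F ∘ ofComplex) (f τ) ↑τ) (M : GL (Fin 2) ℝ) (a b : ℂ)
    (hM : ∀ τ : ℍ, ((M • τ : ℍ) : ℂ) = a * (τ : ℂ) + b) (τ : ℍ) :
    HasDerivAt ((fun z : ℍ => F (M • z)) ∘ ofComplex) (a * f (M • τ)) ↑τ := by
  have h1 : HasDerivAt (fun w : ℂ => a * w + b) a (τ : ℂ) := by
    simpa using ((hasDerivAt_id (τ : ℂ)).const_mul a).add_const b
  have h2 : HasDerivAt (F ∘ ofComplex) (f (M • τ)) (a * (τ : ℂ) + b) := by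
    rw [← hM τ]; exact hF (M • τ)
  have h3 := HasDerivAt.comp (τ : ℂ) h2 h1
  rw [mul_comm] at h3
  refine h3.congr_of_eventuallyEq ?_
  filter_upwards [isOpen_upperHalfPlaneSet.mem_nhds τ.im_pos] with w hw
  have hw' : 0 < w.im := hw
  simp only [Function.comp_apply]
  congr 1
  apply UpperHalfPlane.ext
  rw [ofComplex_apply_of_im_pos hw', hM, ← hM ⟨w, hw'⟩, ofComplex_apply]

/-- The abstract coset computation. -/
theorem periodMap_of_sum {N : ℕ} [NeZero N] {ι : Type*} [Fintype ι] (M : ι → GL (Fin 2) ℝ)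
    (f Tf : CuspForm (Gamma0 N) 2) {F : ℍ → ℂ} (hF : HasEquivariantPrimitive N f F)
    (hderiv : ∀ τ : ℍ, HasDerivAt ((fun z : ℍ => ∑ i, F (M i • z)) ∘ ofComplex) (Tf τ) ↑τ)
    (γ : Gamma0 N) (σ : Equiv.Perm ι) (δ : ι → Gamma0 N)
    (hδ : ∀ i, M i * mapGL ℝ (γ : SL(2, ℤ)) = mapGL ℝ (δ i : SL(2, ℤ)) * M (σ i)) :
    periodMap N Tf (Additive.ofMul γ) = ∑ i, periodMap N f (Additive.ofMul (δ i)) := by
  obtain ⟨F₁, hF₁, -⟩ := Fermat.Agent.S21.exists_hasEquivariantPrimitive N Tf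
  obtain ⟨c, hc⟩ := Fermat.Agent.S21.exists_const_of_hasDerivAt hF₁.1 hderiv
  rw [Fermat.Agent.S21.periodMap_apply hF₁ γ UpperHalfPlane.I]
  have e1 := hc ((γ : SL(2, ℤ)) • UpperHalfPlane.I)
  have e2 := hc UpperHalfPlane.I
  have step : ∀ i, F (M i • ((γ : SL(2, ℤ)) • UpperHalfPlane.I))
      = F ((δ i : SL(2, ℤ)) • (M (σ i) • UpperHalfPlane.I)) := by
    intro i
    have h1 : M i • ((γ : SL(2, ℤ)) • UpperHalfPlane.I)
        = (M i * mapGL ℝ (γ : SL(2, ℤ))) • UpperHalfPlane.I := by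
      rw [mul_smul]; rfl
    have h2 : (δ i : SL(2, ℤ)) • (M (σ i) • UpperHalfPlane.I)
        = (mapGL ℝ (δ i : SL(2, ℤ)) * M (σ i)) • UpperHalfPlane.I := by
      rw [mul_smul]; rfl
    rw [h1, h2, hδ i]
  have hperm : ∑ i, F (M i • UpperHalfPlane.I) = ∑ i, F (M (σ i) • UpperHalfPlane.I) :=
    (Equiv.sum_comp σ (fun i => F (M i • UpperHalfPlane.I))).symm
  have key : F₁ ((γ : SL(2, ℤ)) • UpperHalfPlane.I) - F₁ UpperHalfPlane.I
      = ∑ i, F (M i • ((γ : SL(2, ℤ)) • UpperHalfPlane.I)) - ∑ i, F (M i • UpperHalfPlane.I) := by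
    linear_combination e1 - e2
  rw [key, hperm, ← Finset.sum_sub_distrib]
  refine Finset.sum_congr rfl fun i _ => ?_
  rw [step i, Fermat.Agent.S21.periodMap_apply hF (δ i) (M (σ i) • UpperHalfPlane.I)]

/-- Derivative of `F ∘ heckeMatrix`. -/
theorem hasDerivAt_comp_heckeMatrix {F f : ℍ → ℂ}
    (hF : ∀ τ : ℍ, HasDerivAt (F ∘ ofComplex) (f τ) ↑τ) {p : ℕ} (hp : p ≠ 0) (j : ℕ) (τ : ℍ) :
    HasDerivAt ((fun z : ℍ => F (ModularForm.heckeMatrix p j • z)) ∘ ofComplex)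
      ((f ∣[(2 : ℤ)] ModularForm.heckeMatrix p j) τ) ↑τ := by
  have hp' : (p : ℂ) ≠ 0 := by exact_mod_cast hp
  have h := hasDerivAt_comp_affine hF (ModularForm.heckeMatrix p j) ((p : ℂ)⁻¹) ((j : ℂ) / p)
    (fun τ => by rw [ModularForm.coe_heckeMatrix_smul hp]; field_simp) τ
  rw [ModularForm.slash_heckeMatrix_apply 2 hp]
  exact h

/-- Derivative of `F ∘ heckeDiagMatrix`. -/
theorem hasDerivAt_comp_heckeDiagMatrix {F f : ℍ → ℂ}
    (hF : ∀ τ : ℍ, HasDerivAt (F ∘ ofComplex) (f τ) ↑τ) {p : ℕ} (hp : p ≠ 0) (τ : ℍ) :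
    HasDerivAt ((fun z : ℍ => F (ModularForm.heckeDiagMatrix p • z)) ∘ ofComplex)
      ((f ∣[(2 : ℤ)] ModularForm.heckeDiagMatrix p) τ) ↑τ := by
  have h := hasDerivAt_comp_affine hF (ModularForm.heckeDiagMatrix p) (p : ℂ) 0
    (fun τ => by rw [ModularForm.coe_heckeDiagMatrix_smul hp, add_zero]) τ
  rw [ModularForm.slash_heckeDiagMatrix_apply 2 hp]
  simpa using h

/-- A finite sum of primitives. -/
theorem hasDerivAt_sum_comp {ι : Type*} [Fintype ι] {F : ℍ → ℂ} (M : ι → GL (Fin 2) ℝ)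
    (g : ι → ℍ → ℂ)
    (h : ∀ i (τ : ℍ), HasDerivAt ((fun z : ℍ => F (M i • z)) ∘ ofComplex) (g i τ) ↑τ) (τ : ℍ) :
    HasDerivAt ((fun z : ℍ => ∑ i, F (M i • z)) ∘ ofComplex) ((∑ i, g i) τ) ↑τ := by
  have h1 : HasDerivAt (fun w : ℂ => ∑ i, ((fun z : ℍ => F (M i • z)) ∘ ofComplex) w)
      (∑ i, g i τ) ↑τ := HasDerivAt.fun_sum fun i _ => h i τ
  rw [Finset.sum_apply]
  exact h1

end HeckePeriod

open HeckePeriod

theorem periodMap_heckeT (N : ℕ) [NeZero N] {ℓ : ℕ} [Fact ℓ.Prime] (hℓ : ℓ.Prime) (hℓN : ¬ ℓ ∣ N)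
    (f : CuspForm (Gamma0 N) 2) (γ : Gamma0 N) (δ : OnePoint (ZMod ℓ) → Gamma0 N)
    (hδ : ∀ x, heckeRep ℓ x * mapGL ℝ (γ : SL(2, ℤ))
      = mapGL ℝ (δ x : SL(2, ℤ)) * heckeRep ℓ (redMatrix ℓ (γ : SL(2, ℤ)) • x)) :
    periodMap N (CuspForm.heckeTLin 2 hℓ hℓN f) (Additive.ofMul γ)
      = ∑ x, periodMap N f (Additive.ofMul (δ x)) := by
  obtain ⟨F, hF, -⟩ := Fermat.Agent.S21.exists_hasEquivariantPrimitive N f
  have hℓ0 : ℓ ≠ 0 := hℓ.ne_zero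
  refine periodMap_of_sum (heckeRep ℓ) f (CuspForm.heckeTLin 2 hℓ hℓN f) hF (fun τ => ?_) γ
    (MulAction.toPerm (redMatrix ℓ (γ : SL(2, ℤ)))) δ hδ
  have h := hasDerivAt_sum_comp (F := F) (heckeRep ℓ) (fun x => (⇑f) ∣[(2 : ℤ)] heckeRep ℓ x)
    (fun x τ => by
      induction x using OnePoint.rec with
      | infty => exact hasDerivAt_comp_heckeDiagMatrix hF.1 hℓ0 τ
      | coe j => exact hasDerivAt_comp_heckeMatrix hF.1 hℓ0 j.val τ) τ
  rw [CuspForm.heckeTLin_apply_apply, heckeT_eq_sum_onePoint]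
  exact h

theorem periodMap_heckeU (N : ℕ) [NeZero N] {q : ℕ} [NeZero q] (hqN : q ∣ N)
    (f : CuspForm (Gamma0 N) 2) (γ : Gamma0 N)
    (hc : (((γ : SL(2, ℤ)) 1 0 : ℤ) : ZMod q) = 0) (δ : ZMod q → Gamma0 N)
    (hδ : ∀ x : ZMod q, ModularForm.heckeMatrix q x.val * mapGL ℝ (γ : SL(2, ℤ))
      = mapGL ℝ (δ x : SL(2, ℤ)) * ModularForm.heckeMatrix q (affinePerm (γ : SL(2, ℤ)) hc x).val) :
    periodMap N (CuspForm.heckeULin 2 hqN f) (Additive.ofMul γ)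
      = ∑ x, periodMap N f (Additive.ofMul (δ x)) := by
  obtain ⟨F, hF, -⟩ := Fermat.Agent.S21.exists_hasEquivariantPrimitive N f
  have hq0 : q ≠ 0 := NeZero.ne q
  refine periodMap_of_sum (fun x : ZMod q => ModularForm.heckeMatrix q x.val) f
    (CuspForm.heckeULin 2 hqN f) hF (fun τ => ?_) γ (affinePerm (γ : SL(2, ℤ)) hc) δ hδ
  have h := hasDerivAt_sum_comp (F := F) (fun x : ZMod q => ModularForm.heckeMatrix q x.val)
    (fun x => (⇑f) ∣[(2 : ℤ)] ModularForm.heckeMatrix q x.val)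
    (fun x τ => hasDerivAt_comp_heckeMatrix hF.1 hq0 x.val τ) τ
  rw [CuspForm.heckeULin_apply_apply, heckeU_eq_sum_zmod]
  exact h

end Fermat.Agent.S16.Coh
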