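import Mathlib
import Fermat.Prelude.Def_ModularCurve_PeriodMap
import Fermat.Prelude.Def_ModularCurve_GenusNumerics
import Fermat.Agent.S21.ParabolicBound
import Fermat.Agent.S21.OrbitGenus
import Fermat.Agent.S16.Coh.FieldCount

/-!
# Homomorphisms `Γ₀(N) → K` killing parabolic and elliptic elements  (S16, cohomological EX half)

For a field `K` of *any* characteristic, the space of homomorphisms `Γ₀(N) → K` vanishing on all
elements `γ` with `trace γ ^ 2 ≤ 4` (i.e. `±1`, parabolic and elliptic elements) has dimension at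
most `2 * genusFormula N`.  This is the statement "`H¹(X₀(N), K)` has dimension `≤ 2g`", proved by
the Shapiro/crossed-map count of `FieldCount.lean` on `SL(2, ℤ) ⧸ Γ₀(N)`.
-/

set_option autoImplicit false

open scoped MatrixGroups
open ModularCurve.Period ModularGroup CongruenceSubgroup

namespace Fermat.Agent.S16.Coh

open Fermat.Agent.S21.ParabolicBound

/-- A homomorphism killing every element of `Γ` with `trace ^ 2 ≤ 4`. -/
def IsEllParHom (Γ : Subgroup SL(2, ℤ)) {A : Type*} [AddCommGroup A] (φ : Additive Γ →+ A) :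
    Prop :=
  ∀ γ : Γ, ((γ : SL(2, ℤ)) : Matrix (Fin 2) (Fin 2) ℤ).trace ^ 2 ≤ 4 → φ (Additive.ofMul γ) = 0

theorem IsEllParHom.isParabolicHom {Γ : Subgroup SL(2, ℤ)} {A : Type*} [AddCommGroup A]
    {φ : Additive Γ →+ A} (h : IsEllParHom Γ φ) : IsParabolicHom Γ φ :=
  fun γ hγ => h γ hγ.le

/-- The space of homomorphisms `Γ → K` killing every element with `trace ^ 2 ≤ 4`. -/
def ellParHoms (K : Type*) [Field K] (Γ : Subgroup SL(2, ℤ)) : Submodule K (Additive Γ →+ K) where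
  carrier := {φ | IsEllParHom Γ φ}
  zero_mem' := fun _ _ => rfl
  add_mem' := by
    intro φ ψ hφ hψ γ hγ
    show φ (Additive.ofMul γ) + ψ (Additive.ofMul γ) = 0
    rw [hφ γ hγ, hψ γ hγ, add_zero]
  smul_mem' := by
    intro c φ hφ γ hγ
    show c • φ (Additive.ofMul γ) = 0
    rw [hφ γ hγ, smul_zero]

theorem mem_ellParHoms_iff {K : Type*} [Field K] {Γ : Subgroup SL(2, ℤ)}
    {φ : Additive Γ →+ K} : φ ∈ ellParHoms K Γ ↔ IsEllParHom Γ φ := Iff.rfl

/-! ### Generic crossed maps on the coset space -/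

section Crossed

variable {Γ : Subgroup SL(2, ℤ)} {A : Type*} [AddCommGroup A]

/-- A crossed map `SL(2, ℤ) × (SL(2, ℤ) ⧸ Γ) → A`. -/
def IsCrossed (d : SL(2, ℤ) → (SL(2, ℤ) ⧸ Γ) → A) : Prop :=
  ∀ (g h : SL(2, ℤ)) (x : SL(2, ℤ) ⧸ Γ), d (g * h) x = d g (h • x) + d h x

theorem IsCrossed.one {d : SL(2, ℤ) → (SL(2, ℤ) ⧸ Γ) → A} (hd : IsCrossed d)
    (x : SL(2, ℤ) ⧸ Γ) : d 1 x = 0 := by
  have h := hd 1 1 x
  rw [one_mul, one_smul] at h
  have h2 : d 1 x + d 1 x = d 1 x + 0 := by rw [add_zero]; exact h.symm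
  exact add_left_cancel h2

theorem IsCrossed.inv {d : SL(2, ℤ) → (SL(2, ℤ) ⧸ Γ) → A} (hd : IsCrossed d) (g : SL(2, ℤ))
    (x : SL(2, ℤ) ⧸ Γ) : d g⁻¹ x = - d g (g⁻¹ • x) := by
  have h := hd g g⁻¹ x
  rw [mul_inv_cancel, hd.one] at h
  exact eq_neg_of_add_eq_zero_right h.symm

theorem IsCrossed.pow {d : SL(2, ℤ) → (SL(2, ℤ) ⧸ Γ) → A} (hd : IsCrossed d) (g : SL(2, ℤ))
    (n : ℕ) (x : SL(2, ℤ) ⧸ Γ) :
    d (g ^ n) x = ∑ j ∈ Finset.range n, d g (g ^ j • x) := by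
  induction n generalizing x with
  | zero => simp [hd.one]
  | succ n ih =>
    rw [pow_succ, hd, ih, Finset.sum_range_succ', pow_zero, one_smul]
    refine congrArg (· + d g x) (Finset.sum_congr rfl fun j _ => ?_)
    rw [pow_succ, mul_smul]

/-- A crossed map vanishing at `S` and `S * T` vanishes identically. -/
theorem IsCrossed.eq_zero_of_S_ST {d : SL(2, ℤ) → (SL(2, ℤ) ⧸ Γ) → A} (hd : IsCrossed d)
    (hS : ∀ x, d S x = 0) (hST : ∀ x, d (S * T) x = 0) (g : SL(2, ℤ)) (x : SL(2, ℤ) ⧸ Γ) :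
    d g x = 0 := by
  have hT : ∀ x, d T x = 0 := by
    intro x
    have h1 : d T x = d S⁻¹ ((S * T) • x) + d (S * T) x := by
      rw [← hd, inv_mul_cancel_left]
    rw [h1, hd.inv, hS, hST, neg_zero, add_zero]
  have hg : g ∈ Subgroup.closure ({S, T} : Set SL(2, ℤ)) := by
    rw [SpecialLinearGroup.SL2Z_generators]; trivial
  induction hg using Subgroup.closure_induction generalizing x with
  | mem g hg =>
    rcases hg with rfl | rfl
    · exact hS x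
    · exact hT x
  | one => exact hd.one x
  | mul g h _ _ ihg ihh => rw [hd, ihg, ihh, add_zero]
  | inv g _ ih => rw [hd.inv, ih, neg_zero]

/-- The crossed map attached to a homomorphism `φ : Γ → A`. -/
noncomputable def cphA (φ : Additive Γ →+ A) (g : SL(2, ℤ)) (x : SL(2, ℤ) ⧸ Γ) : A :=
  φ (Additive.ofMul (kap Γ g x))

theorem isCrossed_cphA (φ : Additive Γ →+ A) : IsCrossed (cphA φ) := by
  intro g h x
  unfold cphA
  rw [kap_mul, ofMul_mul, map_add]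

theorem isCrossed_sub {d e : SL(2, ℤ) → (SL(2, ℤ) ⧸ Γ) → A} (hd : IsCrossed d)
    (he : IsCrossed e) : IsCrossed (fun g x => d g x - e g x) := by
  intro g h x
  show d (g * h) x - e (g * h) x = d g (h • x) - e g (h • x) + (d h x - e h x)
  rw [hd, he]
  abel

theorem isCrossed_cobound (u : (SL(2, ℤ) ⧸ Γ) → A) :
    IsCrossed (fun (g : SL(2, ℤ)) (x : SL(2, ℤ) ⧸ Γ) => u (g • x) - u x) := by
  intro g h x
  show u ((g * h) • x) - u x = u (g • h • x) - u (h • x) + (u (h • x) - u x)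
  rw [mul_smul]
  abel

/-- if `g` fixes `x` and `trace g ^ 2 ≤ 4`, the crossed map of an elliptic-parabolic
homomorphism vanishes at `(g, x)`. -/
theorem cphA_eq_zero_of_fixed {φ : Additive Γ →+ A} (hφ : IsEllParHom Γ φ)
    {g : SL(2, ℤ)} {x : SL(2, ℤ) ⧸ Γ} (hx : g • x = x)
    (htr : (g : Matrix (Fin 2) (Fin 2) ℤ).trace ^ 2 ≤ 4) : cphA φ g x = 0 := by
  unfold cphA
  apply hφ
  rw [kap_of_smul_eq Γ hx, trace_conj]
  exact htr

theorem cphA_base (φ : Additive Γ →+ A) (γ : Γ) :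
    cphA φ (γ : SL(2, ℤ)) (((1 : SL(2, ℤ)) : SL(2, ℤ) ⧸ Γ)) = φ (Additive.ofMul γ) := by
  have hfix : (γ : SL(2, ℤ)) • (((1 : SL(2, ℤ)) : SL(2, ℤ) ⧸ Γ))
      = (((1 : SL(2, ℤ)) : SL(2, ℤ) ⧸ Γ)) := by
    show (((γ : SL(2, ℤ)) * 1 : SL(2, ℤ)) : SL(2, ℤ) ⧸ Γ) = ((1 : SL(2, ℤ)) : SL(2, ℤ) ⧸ Γ)
    rw [mul_one, QuotientGroup.eq, mul_one]
    exact Γ.inv_mem γ.2
  have hk : kap Γ (γ : SL(2, ℤ)) (((1 : SL(2, ℤ)) : SL(2, ℤ) ⧸ Γ))
      = (⟨_, out_base_mem Γ⟩ : Γ)⁻¹ * γ * ⟨_, out_base_mem Γ⟩ := by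
    apply Subtype.ext
    rw [kap_of_smul_eq Γ hfix]
    rfl
  unfold cphA
  rw [hk, ofMul_mul, ofMul_mul, ofMul_inv, map_add, map_add, map_neg]
  abel

theorem smul_base_eq (γ : Γ) :
    (γ : SL(2, ℤ)) • (((1 : SL(2, ℤ)) : SL(2, ℤ) ⧸ Γ)) = (((1 : SL(2, ℤ)) : SL(2, ℤ) ⧸ Γ)) := by
  show (((γ : SL(2, ℤ)) * 1 : SL(2, ℤ)) : SL(2, ℤ) ⧸ Γ) = ((1 : SL(2, ℤ)) : SL(2, ℤ) ⧸ Γ)
  rw [mul_one, QuotientGroup.eq, mul_one]
  exact Γ.inv_mem γ.2

/-- invariance under `S` and `S * T` implies invariance under everything -/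
theorem invariant_of_S_ST {B : Type*} {ψ : (SL(2, ℤ) ⧸ Γ) → B} (hS : ∀ x, ψ (S • x) = ψ x)
    (hST : ∀ x, ψ ((S * T) • x) = ψ x) (g : SL(2, ℤ)) (x : SL(2, ℤ) ⧸ Γ) : ψ (g • x) = ψ x := by
  have hT : ∀ x, ψ (T • x) = ψ x := by
    intro x
    have h1 := hS (T • x)
    rw [← mul_smul, hST] at h1
    exact h1.symm
  have hg : g ∈ Subgroup.closure ({S, T} : Set SL(2, ℤ)) := by
    rw [SpecialLinearGroup.SL2Z_generators]; trivial
  induction hg using Subgroup.closure_induction generalizing x with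
  | mem g hg =>
    rcases hg with rfl | rfl
    · exact hS x
    · exact hT x
  | one => rw [one_smul]
  | mul g h _ _ ihg ihh => rw [mul_smul, ihg, ihh]
  | inv g _ ih =>
    have := ih (g⁻¹ • x)
    rw [smul_inv_smul] at this
    exact this.symm

end Crossed

theorem trace_S_sq_le : ((S : SL(2, ℤ)) : Matrix (Fin 2) (Fin 2) ℤ).trace ^ 2 ≤ 4 := by decide

theorem trace_ST_sq_le : ((S * T : SL(2, ℤ)) : Matrix (Fin 2) (Fin 2) ℤ).trace ^ 2 ≤ 4 := by
  decide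

/-! ### The bound -/

section Bound

variable (K : Type*) [Field K] (Γ : Subgroup SL(2, ℤ))

/-- `φ ↦ cphA φ g` as a linear map on `ellParHoms`. -/
noncomputable def cphLin (g : SL(2, ℤ)) : ellParHoms K Γ →ₗ[K] ((SL(2, ℤ) ⧸ Γ) → K) where
  toFun φ := fun x => cphA (φ : Additive Γ →+ K) g x
  map_add' φ ψ := by funext x; simp [cphA]
  map_smul' c φ := by funext x; simp [cphA]

theorem cphLin_apply (g : SL(2, ℤ)) (φ : ellParHoms K Γ) (x : SL(2, ℤ) ⧸ Γ) :
    cphLin K Γ g φ x = cphA (φ : Additive Γ →+ K) g x := rfl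

/-- **The Euler-characteristic bound over a field**, for a finite-index subgroup `Γ ∋ -1` of
`SL(2, ℤ)`: `dim_K {φ : Γ → K elliptic-parabolic} + o_S + o_{ST} + o_T ≤ [SL₂(ℤ) : Γ] + 2`. -/
theorem finrank_ellParHoms_add_le [Finite (SL(2, ℤ) ⧸ Γ)] (hneg : (-1 : SL(2, ℤ)) ∈ Γ) :
    Module.Finite K (ellParHoms K Γ) ∧
      Module.finrank K (ellParHoms K Γ)
        + Nat.card (MulAction.orbitRel.Quotient (Subgroup.zpowers S) (SL(2, ℤ) ⧸ Γ))
        + Nat.card (MulAction.orbitRel.Quotient (Subgroup.zpowers (S * T)) (SL(2, ℤ) ⧸ Γ))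
        + Nat.card (MulAction.orbitRel.Quotient (Subgroup.zpowers T) (SL(2, ℤ) ⧸ Γ))
        ≤ Nat.card (SL(2, ℤ) ⧸ Γ) + 2 := by
  have hneg1 : ∀ (φ : ellParHoms K Γ) (x : SL(2, ℤ) ⧸ Γ),
      cphA (φ : Additive Γ →+ K) (-1) x = 0 := fun φ x =>
    cphA_eq_zero_of_fixed (mem_ellParHoms_iff.mp φ.2) (neg_one_smul_coset hneg x)
      (by decide)
  refine @crossed_count_field K _ SL(2, ℤ) _ (SL(2, ℤ) ⧸ Γ) _ _ S T ?_ ?_ ?_
    (ellParHoms K Γ) (Submodule.addCommGroup _) _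
    (cphLin K Γ S) (cphLin K Γ (S * T)) ?_ ?_ ?_ ?_ ?_ ?_
  · intro x
    rw [← mul_smul, S_mul_S]
    exact neg_one_smul_coset hneg x
  · intro x
    have e : (S * T) • (S * T) • (S * T) • x = ((S * T) * (S * T) * (S * T)) • x := by
      rw [mul_smul ((S * T) * (S * T)) (S * T) x, mul_smul (S * T) (S * T) ((S * T) • x)]
    rw [e, ST_cube]
    exact neg_one_smul_coset hneg x
  · intro u hS hST x y
    obtain ⟨g, rfl⟩ := exists_smul_base Γ x
    obtain ⟨h, rfl⟩ := exists_smul_base Γ y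
    rw [invariant_of_S_ST hS hST g, invariant_of_S_ST hS hST h]
  · intro φ x
    have h := isCrossed_cphA (φ : Additive Γ →+ K) S S x
    rw [S_mul_S, hneg1] at h
    rw [cphLin_apply, cphLin_apply]
    exact eq_neg_of_add_eq_zero_left h.symm
  · intro φ x hx
    rw [cphLin_apply]
    exact cphA_eq_zero_of_fixed (mem_ellParHoms_iff.mp φ.2) hx trace_S_sq_le
  · intro φ x
    have hc := isCrossed_cphA (φ : Additive Γ →+ K)
    have h := hc ((S * T) * (S * T)) (S * T) x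
    rw [ST_cube, hneg1, hc (S * T) (S * T) ((S * T) • x)] at h
    simp only [cphLin_apply]
    linear_combination -h
  · intro φ x hx
    rw [cphLin_apply]
    exact cphA_eq_zero_of_fixed (mem_ellParHoms_iff.mp φ.2) hx trace_ST_sq_le
  · intro φ x n hn
    have hc := isCrossed_cphA (φ : Additive Γ →+ K)
    have hT : ∀ y, cphLin K Γ (S * T) φ y - cphLin K Γ S φ (T • y)
        = cphA (φ : Additive Γ →+ K) T y := by
      intro y
      rw [cphLin_apply, cphLin_apply, hc S T y]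
      ring
    have h1 : ∑ i ∈ Finset.range n, (cphLin K Γ (S * T) φ (T ^ i • x)
        - cphLin K Γ S φ (T ^ (i + 1) • x)) = cphA (φ : Additive Γ →+ K) (T ^ n) x := by
      rw [hc.pow T n x]
      refine Finset.sum_congr rfl fun i _ => ?_
      rw [← hT, pow_succ', mul_smul]
    rw [h1]
    refine cphA_eq_zero_of_fixed (mem_ellParHoms_iff.mp φ.2) hn ?_
    rw [trace_T_pow_sq]
  · intro φ u hA hB
    have hc := isCrossed_sub (isCrossed_cphA (φ : Additive Γ →+ K)) (isCrossed_cobound u)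
    have hall := hc.eq_zero_of_S_ST
      (fun x => by
        show cphA (φ : Additive Γ →+ K) S x - (u (S • x) - u x) = 0
        rw [← cphLin_apply, hA x, sub_self])
      (fun x => by
        show cphA (φ : Additive Γ →+ K) (S * T) x - (u ((S * T) • x) - u x) = 0
        rw [← cphLin_apply, hB x, sub_self])
    apply Subtype.ext
    refine AddMonoidHom.ext fun γ => ?_
    obtain ⟨γ, rfl⟩ := Additive.ofMul.surjective γ
    have h1 := hall (γ : SL(2, ℤ)) (((1 : SL(2, ℤ)) : SL(2, ℤ) ⧸ Γ))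
    have h2 : cphA (φ : Additive Γ →+ K) (γ : SL(2, ℤ)) (((1 : SL(2, ℤ)) : SL(2, ℤ) ⧸ Γ))
        - (u ((γ : SL(2, ℤ)) • (((1 : SL(2, ℤ)) : SL(2, ℤ) ⧸ Γ)))
          - u (((1 : SL(2, ℤ)) : SL(2, ℤ) ⧸ Γ))) = 0 := h1
    rw [cphA_base, smul_base_eq, sub_self, sub_zero] at h2
    simpa using h2

end Bound

/-- **`dim_K H¹(X₀(N), K) ≤ 2g`** for every field `K`: homomorphisms `Γ₀(N) → K` killing all
elements with `trace ^ 2 ≤ 4`. -/
theorem finrank_ellParHoms_Gamma0_le (N : ℕ) [NeZero N] (K : Type*) [Field K] :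
    Module.Finite K (ellParHoms K (Gamma0 N)) ∧
      (Module.finrank K (ellParHoms K (Gamma0 N)) : ℚ) ≤ 2 * ModularCurve.genusFormula N := by
  have hneg := Fermat.Agent.S20.Count.neg_one_mem_Gamma0 N
  obtain ⟨hfin, h⟩ := finrank_ellParHoms_add_le K (Gamma0 N) hneg
  refine ⟨hfin, ?_⟩
  have h2 := Fermat.Agent.S21.two_mul_genusFormula_sub_two N
  have h' : ((Module.finrank K (ellParHoms K (Gamma0 N)) : ℕ) : ℚ)
      + (Nat.card (MulAction.orbitRel.Quotient (Subgroup.zpowers S) (SL(2, ℤ) ⧸ Gamma0 N)) : ℚ)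
      + (Nat.card (MulAction.orbitRel.Quotient (Subgroup.zpowers (S * T))
          (SL(2, ℤ) ⧸ Gamma0 N)) : ℚ)
      + (Nat.card (MulAction.orbitRel.Quotient (Subgroup.zpowers T) (SL(2, ℤ) ⧸ Gamma0 N)) : ℚ)
      ≤ (Nat.card (SL(2, ℤ) ⧸ Gamma0 N) : ℚ) + 2 := by
    exact_mod_cast h
  linarith

end Fermat.Agent.S16.Coh
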