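import Mathlib
import Fermat.Prelude.Def_ModularCurve_PeriodHomPair
import Fermat.Prelude.Def_CuspForm_HeckeEvalForms
import Fermat.Prelude.Sol.S_ModularForm_heckeT_slash_eq_self_of_mem_Gamma0

set_option autoImplicit false

open scoped MatrixGroups ModularForm
open UpperHalfPlane Matrix.SpecialLinearGroup CongruenceSubgroup ModularCurve ModularCurve.Period
open P2MW.S_ModularForm_heckeT_slash_eq_self_of_mem_Gamma0.ModularForm.HeckeSlashInvariance

namespace Fermat.Agent.S16.Coh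

namespace Shimura

/-- A "discrete logarithm": an additive homomorphism `(ZMod p)ˣ → ZMod (p - 1)` taking the
value `1`. -/
theorem exists_log (p : ℕ) [Fact p.Prime] :
    ∃ (L : Additive (ZMod p)ˣ →+ ZMod (p - 1)) (u : (ZMod p)ˣ), L (Additive.ofMul u) = 1 := by
  have hcard : Nat.card (ZMod p)ˣ = p - 1 := by
    rw [Nat.card_eq_fintype_card, ZMod.card_units]
  let e := zmodCyclicMulEquiv (inferInstance : IsCyclic (ZMod p)ˣ)
  let r := ZMod.ringEquivCongr hcard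
  refine ⟨r.toAddMonoidHom.comp (MonoidHom.toAdditiveLeft e.symm.toMonoidHom),
    e (Multiplicative.ofAdd (r.symm 1)), ?_⟩
  simp [MonoidHom.toAdditiveLeft]

variable {p : ℕ}

theorem d_mul_a (γ : Gamma0 p) :
    (((γ : SL(2, ℤ)) 1 1 : ℤ) : ZMod p) * (((γ : SL(2, ℤ)) 0 0 : ℤ) : ZMod p) = 1 := by
  have h := unit_of_apply_one_zero_eq_zero (p := p) (γ : SL(2, ℤ)) (Gamma0_mem.mp γ.2)
  rw [mul_comm]; exact h

/-- The lower right entry mod `p`, as a unit. -/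
def dUnit (γ : Gamma0 p) : (ZMod p)ˣ :=
  Units.mkOfMulEqOne _ _ (d_mul_a γ)

@[simp] theorem dUnit_val (γ : Gamma0 p) :
    (dUnit γ : ZMod p) = (((γ : SL(2, ℤ)) 1 1 : ℤ) : ZMod p) := rfl

/-- The character `γ ↦ d mod p` of `Γ₀(p)`. -/
def dHom (p : ℕ) : Gamma0 p →* (ZMod p)ˣ where
  toFun := dUnit
  map_one' := by
    apply Units.ext
    simp
  map_mul' γ γ' := by
    apply Units.ext
    have hc : (((γ : SL(2, ℤ)) 1 0 : ℤ) : ZMod p) = 0 := Gamma0_mem.mp γ.2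
    simp only [dUnit_val, Units.val_mul, Subgroup.coe_mul, Matrix.SpecialLinearGroup.coe_mul,
      Matrix.mul_apply, Fin.sum_univ_two]
    push_cast
    rw [hc]; ring

@[simp] theorem dHom_val (γ : Gamma0 p) :
    (dHom p γ : ZMod p) = (((γ : SL(2, ℤ)) 1 1 : ℤ) : ZMod p) := rfl


theorem dHom_pow_twelve {p : ℕ} [Fact p.Prime] (γ : Gamma0 p)
    (ht : ((γ : SL(2, ℤ)) : Matrix (Fin 2) (Fin 2) ℤ).trace ^ 2 ≤ 4) :
    dHom p γ ^ 12 = 1 := by
  apply Units.ext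
  rw [Units.val_pow_eq_pow_val, dHom_val, Units.val_one]
  have hda := d_mul_a γ
  rw [Matrix.trace_fin_two] at ht
  set a : ℤ := (γ : SL(2, ℤ)) 0 0 with ha
  set d : ℤ := (γ : SL(2, ℤ)) 1 1 with hd
  set D : ZMod p := (d : ZMod p) with hD
  set A : ZMod p := (a : ZMod p) with hA
  have hAD : A = ((a + d : ℤ) : ZMod p) - D := by
    rw [hA, hD]; push_cast; ring
  obtain ⟨t, htdef⟩ : ∃ t : ℤ, t = a + d := ⟨_, rfl⟩
  rw [← htdef] at ht hAD
  have h1 : -2 ≤ t := by nlinarith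
  have h2 : t ≤ 2 := by nlinarith
  have key : D ^ 2 = (t : ZMod p) * D - 1 := by
    rw [hAD] at hda
    linear_combination -hda
  interval_cases t
  · -- t = -2
    have h0 : (D + 1) ^ 2 = 0 := by push_cast at key; linear_combination key
    have h3 : D = -1 := by
      have := pow_eq_zero_iff (two_ne_zero) |>.mp h0
      linear_combination this
    rw [h3]; ring
  · -- t = -1
    push_cast at key
    linear_combination (D ^ 6 + 1) * (D ^ 3 + 1) * (D - 1) * key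
  · -- t = 0
    push_cast at key
    linear_combination (D ^ 10 - D ^ 8 + D ^ 6 - D ^ 4 + D ^ 2 - 1) * key
  · -- t = 1
    push_cast at key
    linear_combination (D ^ 6 + 1) * (D ^ 3 - 1) * (D + 1) * key
  · -- t = 2
    have h0 : (D - 1) ^ 2 = 0 := by push_cast at key; linear_combination key
    have h3 : D = 1 := by
      have := pow_eq_zero_iff (two_ne_zero) |>.mp h0
      linear_combination this
    rw [h3]; ring

/-- Lower right entry of the Hecke representatives. -/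
def m22 (ℓ : ℕ) (x : OnePoint (ZMod ℓ)) : ℕ := x.elim 1 (fun _ => ℓ)

/-- Upper right entry of the Hecke representatives. -/
def m12 (ℓ : ℕ) (x : OnePoint (ZMod ℓ)) : ℕ := x.elim 0 (fun j => j.val)

theorem heckeRep_apply_one_zero {ℓ : ℕ} (hℓ : ℓ ≠ 0) (x : OnePoint (ZMod ℓ)) :
    ((heckeRep ℓ x : GL (Fin 2) ℝ) : Matrix (Fin 2) (Fin 2) ℝ) 1 0 = 0 := by
  cases x using OnePoint.rec with
  | infty => simp [heckeRep, ModularForm.val_heckeDiagMatrix hℓ]
  | coe j => simp [heckeRep, ModularForm.val_heckeMatrix hℓ]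

theorem heckeRep_apply_one_one {ℓ : ℕ} (hℓ : ℓ ≠ 0) (x : OnePoint (ZMod ℓ)) :
    ((heckeRep ℓ x : GL (Fin 2) ℝ) : Matrix (Fin 2) (Fin 2) ℝ) 1 1 = (m22 ℓ x : ℝ) := by
  cases x using OnePoint.rec with
  | infty => simp [heckeRep, m22, ModularForm.val_heckeDiagMatrix hℓ]
  | coe j => simp [heckeRep, m22, ModularForm.val_heckeMatrix hℓ]

theorem heckeRep_apply_zero_one {ℓ : ℕ} (hℓ : ℓ ≠ 0) (x : OnePoint (ZMod ℓ)) :
    ((heckeRep ℓ x : GL (Fin 2) ℝ) : Matrix (Fin 2) (Fin 2) ℝ) 0 1 = (m12 ℓ x : ℝ) := by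
  cases x using OnePoint.rec with
  | infty => simp [heckeRep, m12, ModularForm.val_heckeDiagMatrix hℓ]
  | coe j => simp [heckeRep, m12, ModularForm.val_heckeMatrix hℓ]

/-- The integer identity for the lower right entries coming from
`M_x γ = δ M_{x'}`. -/
theorem entry_T {ℓ : ℕ} (hℓ : ℓ ≠ 0) (g g' : SL(2, ℤ)) (x x' : OnePoint (ZMod ℓ))
    (h : heckeRep ℓ x * mapGL ℝ g = mapGL ℝ g' * heckeRep ℓ x') :
    (m22 ℓ x : ℤ) * g 1 1 = g' 1 0 * (m12 ℓ x' : ℤ) + g' 1 1 * (m22 ℓ x' : ℤ) := by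
  have h1 := congrArg (fun M : GL (Fin 2) ℝ => (M : Matrix (Fin 2) (Fin 2) ℝ) 1 1) h
  simp only [Matrix.GeneralLinearGroup.coe_mul, Matrix.mul_apply, Fin.sum_univ_two,
    heckeRep_apply_one_zero hℓ, heckeRep_apply_one_one hℓ, heckeRep_apply_zero_one hℓ,
    mapGL_apply] at h1
  have h2 : ((m22 ℓ x : ℤ) : ℝ) * ((g 1 1 : ℤ) : ℝ)
      = ((g' 1 0 : ℤ) : ℝ) * ((m12 ℓ x' : ℤ) : ℝ) + ((g' 1 1 : ℤ) : ℝ) * ((m22 ℓ x' : ℤ) : ℝ) := by
    push_cast
    linarith
  exact_mod_cast h2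

/-- The integer identities coming from `M_j γ = δ M_{j'}` for the `U_p` representatives. -/
theorem entry_U {q : ℕ} (hq : q ≠ 0) (g g' : SL(2, ℤ)) (j j' : ℕ)
    (h : ModularForm.heckeMatrix q j * mapGL ℝ g = mapGL ℝ g' * ModularForm.heckeMatrix q j') :
    g 1 1 = g 1 0 * j' + g' 1 1 := by
  have h1 := congrArg (fun M : GL (Fin 2) ℝ => (M : Matrix (Fin 2) (Fin 2) ℝ) 1 1) h
  have h0 := congrArg (fun M : GL (Fin 2) ℝ => (M : Matrix (Fin 2) (Fin 2) ℝ) 1 0) h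
  simp only [Matrix.GeneralLinearGroup.coe_mul, Matrix.mul_apply, Fin.sum_univ_two,
    ModularForm.val_heckeMatrix hq, mapGL_apply, Matrix.of_apply, Matrix.cons_val_zero,
    Matrix.cons_val_one, Matrix.cons_val', Matrix.empty_val', Matrix.cons_val_fin_one] at h1 h0
  have hq' : (q : ℝ) ≠ 0 := by exact_mod_cast hq
  have h2 : ((g 1 1 : ℤ) : ℝ) = ((g 1 0 : ℤ) : ℝ) * (j' : ℝ) + ((g' 1 1 : ℤ) : ℝ) := by
    have e0 : ((g' 1 0 : ℤ) : ℝ) = (q : ℝ) * ((g 1 0 : ℤ) : ℝ) := by linarith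
    have e1 : (q : ℝ) * ((g 1 1 : ℤ) : ℝ)
        = (q : ℝ) * (((g 1 0 : ℤ) : ℝ) * (j' : ℝ) + ((g' 1 1 : ℤ) : ℝ)) := by
      rw [e0] at h1; linarith
    exact mul_left_cancel₀ hq' e1
  exact_mod_cast h2


theorem natCast_self_sub_one (p : ℕ) (hp : 0 < p) : ((p : ℕ) : ZMod (p - 1)) = 1 := by
  obtain ⟨n, rfl⟩ : ∃ n, p = n + 1 := ⟨p - 1, by omega⟩
  rw [Nat.add_sub_cancel, Nat.cast_add, ZMod.natCast_self, zero_add, Nat.cast_one]

theorem card_onePoint_zmod (ℓ : ℕ) [NeZero ℓ] : Fintype.card (OnePoint (ZMod ℓ)) = ℓ + 1 := by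
  have h : Fintype.card (OnePoint (ZMod ℓ)) = Fintype.card (Option (ZMod ℓ)) :=
    Fintype.card_congr (Equiv.refl _)
  rw [h, Fintype.card_option, ZMod.card]

/-- The unit `m22 ℓ x mod p` for a prime `ℓ ≠ p`. -/
def wUnit {p ℓ : ℕ} (uℓ : (ZMod p)ˣ) (x : OnePoint (ZMod ℓ)) : (ZMod p)ˣ :=
  x.elim 1 (fun _ => uℓ)

theorem wUnit_val {p ℓ : ℕ} (uℓ : (ZMod p)ˣ) (hu : (uℓ : ZMod p) = (ℓ : ZMod p))
    (x : OnePoint (ZMod ℓ)) : (wUnit uℓ x : ZMod p) = ((m22 ℓ x : ℕ) : ZMod p) := by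
  cases x using OnePoint.rec with
  | infty => simp [wUnit, m22]
  | coe j => simp [wUnit, m22, hu]

end Shimura

open Shimura in
theorem exists_shimura (p : ℕ) [Fact p.Prime] :
    ∃ σ : Additive (Gamma0 p) →+ ZMod (p - 1),
      (∀ γ : Gamma0 p, ((γ : SL(2, ℤ)) : Matrix (Fin 2) (Fin 2) ℤ).trace ^ 2 ≤ 4 →
        σ (Additive.ofMul γ) = 0) ∧
      (∃ γ : Gamma0 p, σ (Additive.ofMul γ) = 12) ∧
      (∀ (ℓ : ℕ) [Fact ℓ.Prime], ¬ ℓ ∣ p → ∀ (γ : Gamma0 p) (δ : OnePoint (ZMod ℓ) → Gamma0 p),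
        (∀ x, heckeRep ℓ x * mapGL ℝ (γ : SL(2, ℤ))
          = mapGL ℝ (δ x : SL(2, ℤ)) * heckeRep ℓ (redMatrix ℓ (γ : SL(2, ℤ)) • x)) →
        ∑ x, σ (Additive.ofMul (δ x)) = ((1 + ℓ : ℕ) : ZMod (p - 1)) * σ (Additive.ofMul γ)) ∧
      (∀ (γ : Gamma0 p) (hc : (((γ : SL(2, ℤ)) 1 0 : ℤ) : ZMod p) = 0) (δ : ZMod p → Gamma0 p),
        (∀ x : ZMod p, ModularForm.heckeMatrix p x.val * mapGL ℝ (γ : SL(2, ℤ))
          = mapGL ℝ (δ x : SL(2, ℤ)) *
            ModularForm.heckeMatrix p (affinePerm (γ : SL(2, ℤ)) hc x).val) →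
        ∑ x, σ (Additive.ofMul (δ x)) = σ (Additive.ofMul γ)) := by
  have hp : p.Prime := Fact.out
  have : NeZero p := ⟨hp.ne_zero⟩
  obtain ⟨L, u, hLu⟩ := exists_log p
  -- the class
  let σ : Additive (Gamma0 p) →+ ZMod (p - 1) :=
    { toFun := fun γ => (12 : ℕ) • L (Additive.ofMul (dHom p γ.toMul))
      map_zero' := by simp
      map_add' := fun γ γ' => by
        simp only [toMul_add, map_mul, ofMul_mul, map_add, smul_add] }
  have hσ : ∀ γ : Gamma0 p, σ (Additive.ofMul γ) = (12 : ℕ) • L (Additive.ofMul (dHom p γ)) :=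
    fun γ => rfl
  refine ⟨σ, ?_, ?_, ?_, ?_⟩
  · -- parabolic and elliptic elements
    intro γ ht
    rw [hσ, ← map_nsmul, ← ofMul_pow, dHom_pow_twelve γ ht]
    simp
  · -- the value 12
    set d0 : ℕ := (u : ZMod p).val with hd0
    set a0 : ℕ := ((u⁻¹ : (ZMod p)ˣ) : ZMod p).val with ha0
    have hdvd : (p : ℤ) ∣ (a0 : ℤ) * d0 - 1 := by
      rw [← ZMod.intCast_zmod_eq_zero_iff_dvd]
      push_cast
      rw [ha0, hd0, ZMod.natCast_zmod_val, ZMod.natCast_zmod_val, ← Units.val_mul]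
      simp
    obtain ⟨b0, hb0⟩ := hdvd
    let γ0 : SL(2, ℤ) := ⟨!![(a0 : ℤ), b0; (p : ℤ), (d0 : ℤ)], by
      rw [Matrix.det_fin_two_of]; linarith⟩
    have hγ0 : γ0 ∈ Gamma0 p := by
      rw [Gamma0_mem]
      show (((p : ℤ) : ℤ) : ZMod p) = 0
      simp
    refine ⟨⟨γ0, hγ0⟩, ?_⟩
    rw [hσ]
    have hdu : dHom p ⟨γ0, hγ0⟩ = u := by
      apply Units.ext
      rw [dHom_val]
      show (((d0 : ℤ) : ℤ) : ZMod p) = u
      rw [Int.cast_natCast, hd0, ZMod.natCast_zmod_val]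
    rw [hdu, hLu]
    simp
  · -- Hecke operators T_ℓ
    intro ℓ hℓ hℓp γ δ hδ
    have hℓ' : ℓ.Prime := Fact.out
    have hℓ0 : ℓ ≠ 0 := hℓ'.ne_zero
    have : NeZero ℓ := ⟨hℓ0⟩
    have hℓu : ((ℓ : ℕ) : ZMod p) ≠ 0 := by
      rw [Ne, ZMod.natCast_eq_zero_iff]
      intro h
      exact hℓp ((Nat.prime_dvd_prime_iff_eq hp hℓ').mp h ▸ dvd_rfl)
    let uℓ : (ZMod p)ˣ := Units.mk0 _ hℓu
    have huℓ : (uℓ : ZMod p) = (ℓ : ZMod p) := rfl
    set g : GL (Fin 2) (ZMod ℓ) := redMatrix ℓ (γ : SL(2, ℤ)) with hg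
    -- the key relation between the lower right entries
    have key : ∀ x, dHom p (δ x) * wUnit uℓ (g • x) = wUnit uℓ x * dHom p γ := by
      intro x
      have h := entry_T hℓ0 (γ : SL(2, ℤ)) (δ x : SL(2, ℤ)) x (g • x) (hδ x)
      have hc : ((((δ x : SL(2, ℤ)) 1 0 : ℤ)) : ZMod p) = 0 := Gamma0_mem.mp (δ x).2
      have h' := congrArg (Int.cast : ℤ → ZMod p) h
      push_cast at h'
      rw [hc, zero_mul, zero_add] at h'
      apply Units.ext
      rw [Units.val_mul, Units.val_mul, dHom_val, dHom_val, wUnit_val uℓ huℓ,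
        wUnit_val uℓ huℓ]
      exact h'.symm
    have key2 : ∀ x, L (Additive.ofMul (dHom p (δ x)))
        = L (Additive.ofMul (wUnit uℓ x)) - L (Additive.ofMul (wUnit uℓ (g • x)))
          + L (Additive.ofMul (dHom p γ)) := by
      intro x
      have h := congrArg (fun v => L (Additive.ofMul v)) (key x)
      simp only [ofMul_mul, map_add] at h
      linear_combination h
    have hperm : ∑ x : OnePoint (ZMod ℓ), L (Additive.ofMul (wUnit uℓ (g • x)))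
        = ∑ x : OnePoint (ZMod ℓ), L (Additive.ofMul (wUnit uℓ x)) :=
      Equiv.sum_comp (MulAction.toPerm g) (fun x => L (Additive.ofMul (wUnit uℓ x)))
    calc ∑ x, σ (Additive.ofMul (δ x))
        = ∑ x : OnePoint (ZMod ℓ), (12 : ℕ) • L (Additive.ofMul (dHom p (δ x))) := rfl
      _ = (12 : ℕ) • ∑ x : OnePoint (ZMod ℓ), L (Additive.ofMul (dHom p (δ x))) := by
          rw [Finset.smul_sum]
      _ = (12 : ℕ) • ((ℓ + 1 : ℕ) • L (Additive.ofMul (dHom p γ))) := by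
          congr 1
          rw [Finset.sum_congr rfl (fun x _ => key2 x), Finset.sum_add_distrib,
            Finset.sum_sub_distrib, hperm, sub_self, zero_add, Finset.sum_const,
            Finset.card_univ, card_onePoint_zmod]
      _ = ((1 + ℓ : ℕ) : ZMod (p - 1)) * σ (Additive.ofMul γ) := by
          rw [hσ, nsmul_eq_mul, nsmul_eq_mul, nsmul_eq_mul]
          push_cast
          ring
  · -- the operator U_p
    intro γ hc δ hδ
    have key : ∀ x, dHom p (δ x) = dHom p γ := by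
      intro x
      have h := entry_U hp.ne_zero (γ : SL(2, ℤ)) (δ x : SL(2, ℤ)) _ _ (hδ x)
      have h' := congrArg (Int.cast : ℤ → ZMod p) h
      push_cast at h'
      rw [hc, zero_mul, zero_add] at h'
      apply Units.ext
      rw [dHom_val, dHom_val]
      exact h'.symm
    calc ∑ x, σ (Additive.ofMul (δ x))
        = ∑ _x : ZMod p, σ (Additive.ofMul γ) := by
          refine Finset.sum_congr rfl (fun x _ => ?_)
          rw [hσ, hσ, key x]
      _ = σ (Additive.ofMul γ) := by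
          rw [Finset.sum_const, Finset.card_univ, ZMod.card, nsmul_eq_mul,
            natCast_self_sub_one p hp.pos, one_mul]

end Fermat.Agent.S16.Coh
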